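/-
AV / F1c-core (helper94): `K[X]` is standard smooth of relative dimension one over `K`.
Mathlib only.
-/
import Mathlib

set_option autoImplicit false

namespace Fermat.Agent.AV.SmoothDed94

open Polynomial KaehlerDifferential

variable (K : Type*) [CommRing K]

/-- The basis `{dX}` of `Ω[K[X]⁄K]`. -/
noncomputable def polyBasis : Module.Basis Unit K[X] (Ω[K[X]⁄K]) :=
  Module.Basis.ofEquivFun ((polynomialEquiv K).trans (LinearEquiv.funUnique Unit K[X] K[X]).symm)

theorem polyBasis_apply : polyBasis K () = D K K[X] X := by
  have h : (polyBasis K).equivFun (D K K[X] X) = fun _ => 1 := by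
    funext i
    simp [polyBasis]
  have h2 : (polyBasis K).equivFun (polyBasis K ()) = fun _ => 1 := by
    funext i
    rw [Module.Basis.equivFun_self]
    simp
  exact (polyBasis K).equivFun.injective (h2.trans h.symm)

instance isStandardSmooth_polynomial : Algebra.IsStandardSmooth K K[X] := by
  have : Subsingleton (Algebra.H1Cotangent K K[X]) := inferInstance
  refine Algebra.IsStandardSmooth.of_basis_kaehlerDifferential (polyBasis K) ?_
  rintro _ ⟨⟨⟩, rfl⟩
  exact ⟨X, (polyBasis_apply K).symm⟩

instance isStandardSmoothOfRelativeDimension_one_polynomial [Nontrivial K] :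
    Algebra.IsStandardSmoothOfRelativeDimension 1 K K[X] := by
  rw [Algebra.IsStandardSmoothOfRelativeDimension.iff_of_isStandardSmooth]
  rw [rank_eq_card_basis (polyBasis K)]
  simp

end Fermat.Agent.AV.SmoothDed94
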