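/-
AV / F1c-core (helper94): a finitely generated domain over an algebraically closed field all of
whose localisations at maximal ideals are discrete valuation rings is smooth of relative
dimension one.  Route: a uniformiser `t` at `m` gives `K[X] → B`, `X ↦ t`, which is unramified at
`m` (residue field `K`, `m B_m = t B_m`), flat (torsion free over a PID), of finite presentation,
hence étale on a basic open neighbourhood of `m`.  Mathlib only.
-/
import Mathlib
import Fermat.Agent.AV.SmoothDed94.Unram
import Fermat.Agent.AV.SmoothDed94.Poly

set_option autoImplicit false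

namespace Fermat.Agent.AV.SmoothDed94

open Polynomial IsLocalRing

section Residue

variable (K : Type*) [Field K] [IsAlgClosed K] {B : Type*} [CommRing B] [Algebra K B]
  [Algebra.FiniteType K B]

/-- Nullstellensatz: the residue field of a maximal ideal is `K`. -/
theorem bijective_algebraMap_quotient (m : Ideal B) [m.IsMaximal] :
    Function.Bijective (algebraMap K (B ⧸ m)) := by
  let _ := Ideal.Quotient.field m
  have : Algebra.FiniteType K (B ⧸ m) :=
    .of_surjective (Ideal.Quotient.mkₐ K m) (Ideal.Quotient.mkₐ_surjective K m)
  have : Module.Finite K (B ⧸ m) := finite_of_finite_type_of_isJacobsonRing K (B ⧸ m)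
  exact IsAlgClosed.algebraMap_bijective_of_isIntegral

theorem surjective_algebraMap_residueField (m : Ideal B) [m.IsMaximal] :
    Function.Surjective (algebraMap K (ResidueField (Localization.AtPrime m))) := by
  have h1 := (bijective_algebraMap_quotient K m).surjective
  have h2 := (Ideal.bijective_algebraMap_quotient_residueField m).surjective
  intro y
  obtain ⟨z, rfl⟩ := h2 y
  obtain ⟨a, rfl⟩ := h1 z
  exact ⟨a, (IsScalarTower.algebraMap_apply K (B ⧸ m) m.ResidueField a)⟩

omit [Algebra.FiniteType K B] in
/-- An element of a domain over an algebraically closed field which is algebraic is a constant. -/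
theorem exists_algebraMap_eq_of_aeval_eq_zero [IsDomain B] (t : B) (p : K[X]) (hp : p ≠ 0)
    (h : aeval t p = 0) : ∃ a : K, algebraMap K B a = t := by
  have hint : IsIntegral K t := (show IsAlgebraic K t from ⟨p, hp, h⟩).isIntegral
  have hq : (minpoly K t).leadingCoeff = 1 := minpoly.monic hint
  have hd : (minpoly K t).degree = 1 :=
    IsAlgClosed.degree_eq_one_of_irreducible K (minpoly.irreducible hint)
  have h0 : aeval t (minpoly K t) = 0 := minpoly.aeval K t
  rw [eq_X_add_C_of_degree_eq_one hd, hq, C_1, one_mul, aeval_add, aeval_X, aeval_C,
    add_eq_zero_iff_eq_neg] at h0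
  exact ⟨-(minpoly K t).coeff 0, by rw [map_neg]; exact h0.symm⟩

end Residue

section Main

variable (K : Type*) [Field K] [IsAlgClosed K] {B : Type*} [CommRing B] [IsDomain B] [Algebra K B]
  [Algebra.FiniteType K B]

/-- **Étale chart at a DVR point.** -/
theorem exists_isStandardSmoothOfRelativeDimension_one (m : Ideal B) [m.IsMaximal]
    [IsDiscreteValuationRing (Localization.AtPrime m)] :
    ∃ f ∉ m, Algebra.IsStandardSmoothOfRelativeDimension 1 K (Localization.Away f) := by
  classical
  obtain ⟨ϖ, hϖ⟩ := IsDiscreteValuationRing.exists_irreducible (Localization.AtPrime m)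
  have hmax : maximalIdeal (Localization.AtPrime m) = Ideal.span {ϖ} := hϖ.maximalIdeal_eq
  obtain ⟨b, s, hbs⟩ := IsLocalization.exists_mk'_eq m.primeCompl ϖ
  have hunit : IsUnit (algebraMap B (Localization.AtPrime m) s) :=
    IsLocalization.map_units (Localization.AtPrime m) s
  have htϖ : algebraMap B (Localization.AtPrime m) b
      = ϖ * algebraMap B (Localization.AtPrime m) s := by
    rw [← hbs, IsLocalization.mk'_spec]
  have hspan : Ideal.span {algebraMap B (Localization.AtPrime m) b}
      = maximalIdeal (Localization.AtPrime m) := by
    rw [hmax, htϖ]; exact Ideal.span_singleton_mul_right_unit hunit ϖ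
  -- the `K[X]`-algebra structure `X ↦ b`
  let φ : K[X] →ₐ[K] B := aeval b
  let _ : Algebra K[X] B := φ.toRingHom.toAlgebra
  have : IsScalarTower K K[X] B := IsScalarTower.of_algebraMap_eq' φ.comp_algebraMap.symm
  have hX : algebraMap K[X] B X = b := by
    change φ X = b
    simp [φ]
  have hφ : ∀ p : K[X], algebraMap K[X] B p = aeval b p := fun p => rfl
  have : Algebra.FiniteType K[X] B := Algebra.FiniteType.of_restrictScalars_finiteType K K[X] B
  have : Algebra.FinitePresentation K[X] B :=
    Algebra.FinitePresentation.of_finiteType.mp inferInstance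
  have : Algebra.EssFiniteType K[X] (Localization.AtPrime m) :=
    Algebra.EssFiniteType.comp K[X] B _
  have hsurj : Function.Surjective
      (algebraMap K[X] (ResidueField (Localization.AtPrime m))) := by
    intro y
    obtain ⟨a, rfl⟩ := surjective_algebraMap_residueField K m y
    exact ⟨C a, by rw [← Polynomial.algebraMap_eq, ← IsScalarTower.algebraMap_apply]⟩
  have hmap : (Ideal.span {(X : K[X])}).map (algebraMap K[X] (Localization.AtPrime m))
      = maximalIdeal _ := by
    rw [Ideal.map_span, Set.image_singleton, IsScalarTower.algebraMap_apply K[X] B, hX, hspan]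
  have hunr : Algebra.IsUnramifiedAt K[X] m :=
    formallyUnramified_of_surjective_residue hsurj _ hmap
  obtain ⟨f, hfm, hf⟩ := Algebra.exists_unramified_of_isUnramifiedAt (R := K[X]) m
  refine ⟨f, hfm, ?_⟩
  -- `b` lies in `m` and is not zero
  have hbm : b ∈ m := by
    rw [← IsLocalization.AtPrime.to_map_mem_maximal_iff (Localization.AtPrime m) m, ← hspan]
    exact Ideal.mem_span_singleton_self _
  have hb0 : b ≠ 0 := by
    rintro rfl
    apply IsDiscreteValuationRing.not_a_field (Localization.AtPrime m)
    rw [← hspan, map_zero, Ideal.span_singleton_eq_bot]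
  -- `X ↦ b` is injective
  have hinj : Function.Injective (algebraMap K[X] B) := by
    rw [injective_iff_map_eq_zero]
    intro p hp
    by_contra hp0
    obtain ⟨a, ha⟩ := exists_algebraMap_eq_of_aeval_eq_zero K b p hp0 (by rw [← hφ, hp])
    have ha0 : a ≠ 0 := by
      rintro rfl
      exact hb0 (by rw [← ha, map_zero])
    apply (Ideal.IsMaximal.ne_top (I := m) inferInstance)
    rw [Ideal.eq_top_iff_one]
    have : (1 : B) = algebraMap K B a⁻¹ * b := by
      rw [← ha, ← map_mul, inv_mul_cancel₀ ha0, map_one]
    rw [this]
    exact m.mul_mem_left _ hbm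
  have hf0 : f ≠ 0 := by
    rintro rfl
    exact hfm m.zero_mem
  have hle : Submonoid.powers f ≤ nonZeroDivisors B :=
    powers_le_nonZeroDivisors_of_noZeroDivisors hf0
  have : IsDomain (Localization.Away f) := IsLocalization.isDomain_localization hle
  have hinj' : Function.Injective (algebraMap K[X] (Localization.Away f)) := by
    rw [IsScalarTower.algebraMap_eq K[X] B (Localization.Away f)]
    exact (IsLocalization.injective _ hle).comp hinj
  have : Module.IsTorsionFree K[X] (Localization.Away f) :=
    Module.isTorsionFree_iff_algebraMap_injective.mpr hinj'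
  have : Module.Flat K[X] (Localization.Away f) := inferInstance
  have : Algebra.FinitePresentation B (Localization.Away f) :=
    IsLocalization.Away.finitePresentation f
  have : Algebra.FinitePresentation K[X] (Localization.Away f) :=
    Algebra.FinitePresentation.trans K[X] B _
  have : Algebra.FormallyUnramified K[X] (Localization.Away f) := hf.1
  have hE : Algebra.Etale K[X] (Localization.Away f) :=
    Algebra.Etale.of_formallyUnramified_of_flat
  have : Algebra.IsStandardSmoothOfRelativeDimension 0 K[X] (Localization.Away f) :=
    Algebra.Etale.iff_isStandardSmoothOfRelativeDimension_zero.mp hE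
  have h := Algebra.IsStandardSmoothOfRelativeDimension.trans 1 0 K K[X] (Localization.Away f)
  simpa using h

end Main

end Fermat.Agent.AV.SmoothDed94
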