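/-
AV / F1c-core (helper94): global corollaries of `exists_isStandardSmoothOfRelativeDimension_one`.

* `exists_chart_of_prime` : every prime has a basic open neighbourhood which is standard smooth of
  relative dimension one over `K`;
* `span_charts_eq_top`, `locally_isStandardSmoothOfRelativeDimension_one` : the shape
  `RingHom.Locally (RingHom.IsStandardSmoothOfRelativeDimension 1) (algebraMap K B)` to which
  Mathlib's `AlgebraicGeometry.SmoothOfRelativeDimension 1` unfolds (`HasRingHomProperty`);
* `smooth` : `Algebra.Smooth K B`;
* Dedekind-domain versions.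
Mathlib only.
-/
import Mathlib
import Fermat.Agent.AV.SmoothDed94.Main

set_option autoImplicit false

universe u

namespace Fermat.Agent.AV.SmoothDed94

open Polynomial IsLocalRing

section Global

variable (K : Type*) [Field K] [IsAlgClosed K] {B : Type*} [CommRing B] [IsDomain B] [Algebra K B]
  [Algebra.FiniteType K B]

/-- Every prime of `B` has a basic open neighbourhood that is standard smooth of relative dimension
one over `K`, provided all localisations at maximal ideals are discrete valuation rings. -/
theorem exists_chart_of_prime
    (hB : ∀ (m : Ideal B) [m.IsMaximal], IsDiscreteValuationRing (Localization.AtPrime m))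
    (P : Ideal B) (hP : P ≠ ⊤) :
    ∃ f ∉ P, Algebra.IsStandardSmoothOfRelativeDimension 1 K (Localization.Away f) := by
  obtain ⟨m, hm, hPm⟩ := Ideal.exists_le_maximal P hP
  have := hB m
  obtain ⟨f, hf, h⟩ := exists_isStandardSmoothOfRelativeDimension_one K m
  exact ⟨f, fun hfP => hf (hPm hfP), h⟩

/-- The charts generate the unit ideal. -/
theorem span_charts_eq_top
    (hB : ∀ (m : Ideal B) [m.IsMaximal], IsDiscreteValuationRing (Localization.AtPrime m)) :
    Ideal.span {f : B | Algebra.IsStandardSmoothOfRelativeDimension 1 K (Localization.Away f)}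
      = ⊤ := by
  by_contra hne
  obtain ⟨f, hf, h⟩ := exists_chart_of_prime K hB _ hne
  exact hf (Ideal.subset_span h)

end Global

section Locally

variable (K : Type u) [Field K] [IsAlgClosed K] {B : Type u} [CommRing B] [IsDomain B]
  [Algebra K B] [Algebra.FiniteType K B]

/-- The `RingHom.Locally` form (this is what `AlgebraicGeometry.SmoothOfRelativeDimension 1`
unfolds to on affine pieces). -/
theorem locally_isStandardSmoothOfRelativeDimension_one
    (hB : ∀ (m : Ideal B) [m.IsMaximal], IsDiscreteValuationRing (Localization.AtPrime m)) :
    RingHom.Locally (RingHom.IsStandardSmoothOfRelativeDimension 1) (algebraMap K B) := by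
  refine ⟨_, span_charts_eq_top K hB, fun t ht => ?_⟩
  rw [← IsScalarTower.algebraMap_eq K B (Localization.Away t)]
  exact (RingHom.isStandardSmoothOfRelativeDimension_algebraMap 1).mpr ht

/-- `B` is smooth over `K`. -/
theorem smooth
    (hB : ∀ (m : Ideal B) [m.IsMaximal], IsDiscreteValuationRing (Localization.AtPrime m)) :
    Algebra.Smooth K B := by
  rw [← RingHom.smooth_algebraMap, RingHom.smooth_iff_locally_isStandardSmooth]
  obtain ⟨s, hs, h⟩ := locally_isStandardSmoothOfRelativeDimension_one K hB
  exact ⟨s, hs, fun t ht => (h t ht).isStandardSmooth⟩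

end Locally

section Dedekind

variable (K : Type*) [Field K] [IsAlgClosed K] {B : Type*} [CommRing B] [Algebra K B]
  [Algebra.FiniteType K B] [IsDedekindDomain B]

/-- In a Dedekind domain that is not a field, localisations at maximal ideals are DVRs. -/
theorem isDiscreteValuationRing_of_isDedekindDomain (hB : ¬ IsField B) (m : Ideal B)
    [m.IsMaximal] : IsDiscreteValuationRing (Localization.AtPrime m) :=
  IsLocalization.AtPrime.isDiscreteValuationRing_of_dedekind_domain B
    (Ring.ne_bot_of_isMaximal_of_not_isField ‹m.IsMaximal› hB) _

theorem exists_chart_of_prime_of_isDedekindDomain (hB : ¬ IsField B) (P : Ideal B) (hP : P ≠ ⊤) :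
    ∃ f ∉ P, Algebra.IsStandardSmoothOfRelativeDimension 1 K (Localization.Away f) :=
  exists_chart_of_prime K (fun m _ => isDiscreteValuationRing_of_isDedekindDomain hB m) P hP

end Dedekind

section DedekindLocally

variable (K : Type u) [Field K] [IsAlgClosed K] {B : Type u} [CommRing B]
  [Algebra K B] [Algebra.FiniteType K B] [IsDedekindDomain B]

theorem locally_isStandardSmoothOfRelativeDimension_one_of_isDedekindDomain (hB : ¬ IsField B) :
    RingHom.Locally (RingHom.IsStandardSmoothOfRelativeDimension 1) (algebraMap K B) :=
  locally_isStandardSmoothOfRelativeDimension_one K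
    (fun m _ => isDiscreteValuationRing_of_isDedekindDomain hB m)

theorem smooth_of_isDedekindDomain (hB : ¬ IsField B) : Algebra.Smooth K B :=
  smooth K (fun m _ => isDiscreteValuationRing_of_isDedekindDomain hB m)

end DedekindLocally

end Fermat.Agent.AV.SmoothDed94
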